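import Mathlib

/-!
# PROJECT C, slice C5a: multi-generator Kummer theory — the Kummer pairing

`K` a field, `L/K` a field extension, `n` a natural number.

* `baseUnits K L : Subgroup Lˣ`, the image of `Kˣ`;
* `radicals K L n : Subgroup Lˣ`, the `x` with `x ^ n ∈ Kˣ`;
* `powFrom K L n : Subgroup Kˣ`, the `a ∈ Kˣ` which are `n`-th powers in `L`;
* `kum hζ : radicals K L n →* (Gal(L/K) →* Lˣ)`, the Kummer pairing `x ↦ (σ ↦ σ x / x)` (needs a
  primitive `n`-th root of unity in `K`);
* its kernels for `L/K` Galois.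
-/

set_option autoImplicit false

namespace Fermat.Agent.CFT.Kummer

open IntermediateField

variable (K L : Type*) [Field K] [Field L] [Algebra K L] (n : ℕ)

/-- The inclusion `Kˣ → Lˣ`. -/
def unitsMap : Kˣ →* Lˣ := Units.map (algebraMap K L : K →* L)

@[simp] theorem coe_unitsMap (a : Kˣ) : ((unitsMap K L a : Lˣ) : L) = algebraMap K L a := rfl

theorem unitsMap_injective : Function.Injective (unitsMap K L) := by
  intro a b h
  apply Units.ext
  apply (algebraMap K L).injective
  have := congrArg (Units.val) h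
  simpa using this

/-- The image of `Kˣ` in `Lˣ`. -/
def baseUnits : Subgroup Lˣ := (unitsMap K L).range

/-- The `n`-th radicals of `L/K`: the units `x` of `L` with `x ^ n ∈ Kˣ`. -/
def radicals : Subgroup Lˣ := (baseUnits K L).comap (powMonoidHom n)

/-- The elements of `Kˣ` which are `n`-th powers in `L`. -/
def powFrom : Subgroup Kˣ := ((powMonoidHom n : Lˣ →* Lˣ).range).comap (unitsMap K L)

variable {K L n}

theorem mem_baseUnits_iff {x : Lˣ} : x ∈ baseUnits K L ↔ ∃ a : Kˣ, unitsMap K L a = x := Iff.rfl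

theorem mem_baseUnits_iff' {x : Lˣ} :
    x ∈ baseUnits K L ↔ (x : L) ∈ Set.range (algebraMap K L) := by
  constructor
  · rintro ⟨a, rfl⟩
    exact ⟨a, rfl⟩
  · rintro ⟨a, ha⟩
    have ha0 : a ≠ 0 := by
      rintro rfl
      rw [map_zero] at ha
      exact x.ne_zero ha.symm
    exact ⟨Units.mk0 a ha0, Units.ext ha⟩

theorem mem_radicals_iff {x : Lˣ} : x ∈ radicals K L n ↔ x ^ n ∈ baseUnits K L := Iff.rfl

theorem mem_powFrom_iff {a : Kˣ} : a ∈ powFrom K L n ↔ ∃ x : Lˣ, x ^ n = unitsMap K L a := Iff.rfl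

theorem baseUnits_le_radicals : baseUnits K L ≤ radicals K L n := fun _ hx =>
  mem_radicals_iff.2 (pow_mem hx n)

theorem range_pow_le_powFrom : (powMonoidHom n : Kˣ →* Kˣ).range ≤ powFrom K L n := by
  rintro _ ⟨b, rfl⟩
  exact ⟨unitsMap K L b, by simp [powMonoidHom_apply, map_pow]⟩

/-- Galois automorphisms fix `baseUnits`. -/
theorem smul_eq_of_mem_baseUnits (σ : L ≃ₐ[K] L) {x : Lˣ} (hx : x ∈ baseUnits K L) :
    σ • x = x := by
  obtain ⟨a, rfl⟩ := hx
  apply Units.ext
  simp [AlgEquiv.smul_units_def]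

theorem smul_mem_radicals (σ : L ≃ₐ[K] L) {x : Lˣ} (hx : x ∈ radicals K L n) :
    σ • x ∈ radicals K L n := by
  rw [mem_radicals_iff] at hx ⊢
  rw [← smul_pow', smul_eq_of_mem_baseUnits σ hx]
  exact hx

/-- All `n`-th roots of unity of `L` come from `K` if `K` contains a primitive one. -/
theorem rootsOfUnity_le_baseUnits [NeZero n] (hζ : (primitiveRoots n K).Nonempty) :
    rootsOfUnity n L ≤ baseUnits K L := by
  obtain ⟨ζ, hζ⟩ := hζ
  rw [mem_primitiveRoots (NeZero.pos n)] at hζ
  intro η hη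
  have hζL : IsPrimitiveRoot (algebraMap K L ζ) n := hζ.map_of_injective (algebraMap K L).injective
  have h1 : (η : L) ^ n = 1 := by
    have := (mem_rootsOfUnity n η).1 hη
    rw [← Units.val_pow_eq_pow_val, this, Units.val_one]
  obtain ⟨i, -, hi⟩ := hζL.eq_pow_of_pow_eq_one h1
  rw [mem_baseUnits_iff']
  exact ⟨ζ ^ i, by rw [map_pow, hi]⟩

/-- `σ x / x` is an `n`-th root of unity for a radical `x`. -/
theorem smul_div_mem_rootsOfUnity (σ : L ≃ₐ[K] L) {x : Lˣ} (hx : x ∈ radicals K L n) :
    σ • x / x ∈ rootsOfUnity n L := by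
  rw [mem_rootsOfUnity, div_pow, ← smul_pow', smul_eq_of_mem_baseUnits σ (mem_radicals_iff.1 hx),
    div_self']

section Pairing

variable [NeZero n] (hζ : (primitiveRoots n K).Nonempty)
include hζ

theorem smul_div_mem_baseUnits (σ : L ≃ₐ[K] L) {x : Lˣ} (hx : x ∈ radicals K L n) :
    σ • x / x ∈ baseUnits K L :=
  rootsOfUnity_le_baseUnits hζ (smul_div_mem_rootsOfUnity σ hx)

/-- The Kummer character of a radical `x`: `σ ↦ σ x / x`. -/
def kumChar (x : radicals K L n) : (L ≃ₐ[K] L) →* Lˣ where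
  toFun σ := σ • (x : Lˣ) / x
  map_one' := by rw [one_smul, div_self']
  map_mul' σ τ := by
    have h := smul_eq_of_mem_baseUnits σ (smul_div_mem_baseUnits hζ τ x.2)
    rw [smul_div'] at h
    rw [mul_smul]
    calc σ • τ • (x : Lˣ) / x = (σ • τ • (x : Lˣ) / σ • (x : Lˣ)) * (σ • (x : Lˣ) / x) := by
          rw [div_mul_div_cancel]
      _ = (τ • (x : Lˣ) / x) * (σ • (x : Lˣ) / x) := by rw [h]
      _ = (σ • (x : Lˣ) / x) * (τ • (x : Lˣ) / x) := mul_comm _ _

@[simp] theorem kumChar_apply (x : radicals K L n) (σ : L ≃ₐ[K] L) :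
    kumChar hζ x σ = σ • (x : Lˣ) / x := rfl

/-- **The Kummer pairing** `radicals → Hom(Gal(L/K), Lˣ)`. -/
def kum : radicals K L n →* ((L ≃ₐ[K] L) →* Lˣ) where
  toFun := kumChar hζ
  map_one' := by
    ext σ
    simp [smul_one]
  map_mul' x y := by
    ext σ
    simp only [kumChar_apply, Subgroup.coe_mul, smul_mul', MonoidHom.mul_apply, Units.val_mul,
      Units.val_div_eq_div_val]
    rw [mul_div_mul_comm]

@[simp] theorem kum_apply (x : radicals K L n) (σ : L ≃ₐ[K] L) :
    kum hζ x σ = σ • (x : Lˣ) / x := rfl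

theorem kum_apply_pow (x : radicals K L n) (σ : L ≃ₐ[K] L) : (kum hζ x σ) ^ n = 1 :=
  (mem_rootsOfUnity n _).1 (smul_div_mem_rootsOfUnity σ x.2)

theorem kum_eq_one_of_mem_baseUnits {x : radicals K L n} (hx : (x : Lˣ) ∈ baseUnits K L) :
    kum hζ x = 1 := by
  ext σ
  rw [kum_apply, smul_eq_of_mem_baseUnits σ hx, div_self']
  rfl

/-- **Right kernel**: for `L/K` Galois, the radicals pairing trivially with the whole Galois group
are the elements of `Kˣ`. -/
theorem kum_eq_one_iff [IsGalois K L] (x : radicals K L n) :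
    kum hζ x = 1 ↔ (x : Lˣ) ∈ baseUnits K L := by
  refine ⟨fun h => ?_, kum_eq_one_of_mem_baseUnits hζ⟩
  rw [mem_baseUnits_iff', InfiniteGalois.mem_range_algebraMap_iff_fixed]
  intro σ
  have h1 : kum hζ x σ = 1 := by rw [h]; rfl
  rw [kum_apply, div_eq_one] at h1
  have := congrArg Units.val h1
  simpa [AlgEquiv.smul_units_def] using this

theorem ker_kum [IsGalois K L] :
    (kum (L := L) hζ).ker = (baseUnits K L).subgroupOf (radicals K L n) := by
  ext x
  rw [MonoidHom.mem_ker, kum_eq_one_iff, Subgroup.mem_subgroupOf]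

/-- **Left kernel**: an automorphism pairing trivially with all radicals fixes the field they
generate. -/
theorem apply_eq_of_kum_eq_one {σ : L ≃ₐ[K] L} (h : ∀ x : radicals K L n, kum hζ x σ = 1)
    {y : L} (hy : y ∈ adjoin K (((↑) : Lˣ → L) '' (radicals K L n : Set Lˣ))) : σ y = y := by
  have key : adjoin K (((↑) : Lˣ → L) '' (radicals K L n : Set Lˣ)) ≤
      IntermediateField.fixedField (Subgroup.zpowers σ) := by
    rw [adjoin_le_iff]
    rintro _ ⟨x, hx, rfl⟩
    rw [SetLike.mem_coe, IntermediateField.mem_fixedField_iff]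
    rintro τ ⟨k, rfl⟩
    have h1 : σ • x = x := by
      have := h ⟨x, hx⟩
      rwa [kum_apply, div_eq_one] at this
    have h2 : ∀ m : ℕ, (σ ^ m) • x = x := by
      intro m
      induction m with
      | zero => simp
      | succ m ih => rw [pow_succ, mul_smul, h1, ih]
    have h3 : ∀ k : ℤ, (σ ^ k) • x = x := by
      intro k
      cases k with
      | ofNat m => simpa using h2 m
      | negSucc m =>
        rw [zpow_negSucc, inv_smul_eq_iff, h2]
    have := congrArg Units.val (h3 k)
    simpa [AlgEquiv.smul_units_def] using this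
  have := key hy
  rw [IntermediateField.mem_fixedField_iff] at this
  exact this σ (Subgroup.mem_zpowers σ)

end Pairing

end Fermat.Agent.CFT.Kummer
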