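import Mathlib
import Fermat.Agent.CFT.Kummer.Pairing

/-!
# PROJECT C, slice C5a: multi-generator Kummer theory — the degree formula

`K` contains a primitive `n`-th root of unity, `L/K` finite Galois.

* `relIndex_baseUnits_eq_finrank`: if `L` is generated over `K` by a group `B` of `n`-th radicals
  containing `Kˣ`, then `[B : Kˣ] = [L : K]`, the Galois group is commutative of exponent dividing
  `n`.
* `relIndex_powFrom_eq_finrank`: `[L : K] = [K^× ∩ L^{×n} : K^{×n}]` if `L` is generated by its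
  `n`-th radicals.
-/

set_option autoImplicit false
set_option linter.unusedSectionVars false
set_option linter.style.haveILetI false

namespace Fermat.Agent.CFT.Kummer

open IntermediateField

variable {K L : Type*} [Field K] [Field L] [Algebra K L] {n : ℕ} [NeZero n]

theorem hasEnoughRootsOfUnity_of_base (hζ : (primitiveRoots n K).Nonempty) :
    HasEnoughRootsOfUnity L n where
  prim := by
    obtain ⟨ζ, hζ⟩ := hζ
    rw [mem_primitiveRoots (NeZero.pos n)] at hζ
    exact ⟨algebraMap K L ζ, hζ.map_of_injective (algebraMap K L).injective⟩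
  cyc := rootsOfUnity.isCyclic L n

theorem ker_powMonoidHom : (powMonoidHom n : Lˣ →* Lˣ).ker = rootsOfUnity n L := by
  ext x
  rw [MonoidHom.mem_ker, powMonoidHom_apply, mem_rootsOfUnity]

/-- The number of multiplicative characters of a finite group with values in a field is at most
the order of the group (Dedekind). -/
theorem card_monoidHom_units_le (G : Type*) [Group G] [Finite G] :
    Nat.card (G →* Lˣ) ≤ Nat.card G := by
  classical
  haveI : Fintype G := Fintype.ofFinite G
  haveI : Fintype (G →* Lˣ) := Fintype.ofFinite _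
  let φ : (G →* Lˣ) → (G →* L) := fun χ => (Units.coeHom L).comp χ
  have hφ : Function.Injective φ := by
    intro χ ψ h
    ext g
    exact congrArg (fun f : G →* L => f g) h
  have hli : LinearIndependent L (fun χ : G →* Lˣ => ((φ χ : G →* L) : G → L)) :=
    (linearIndependent_monoidHom G L).comp φ hφ
  have := hli.fintype_card_le_finrank
  rwa [Module.finrank_fintype_fun_eq_card, ← Nat.card_eq_fintype_card,
    ← Nat.card_eq_fintype_card] at this

section Count

variable [FiniteDimensional K L] [IsGalois K L] (hζ : (primitiveRoots n K).Nonempty)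
  (B : Subgroup Lˣ) (hB1 : baseUnits K L ≤ B) (hB2 : B ≤ radicals K L n)

/-- The Kummer pairing restricted to a group `B` of radicals. -/
def kumB : B →* ((L ≃ₐ[K] L) →* Lˣ) := (kum hζ).comp (Subgroup.inclusion hB2)

@[simp] theorem kumB_apply (x : B) (σ : L ≃ₐ[K] L) :
    kumB hζ B hB2 x σ = σ • (x : Lˣ) / x := rfl

theorem ker_kumB : (kumB hζ B hB2).ker = (baseUnits K L).subgroupOf B := by
  ext x
  rw [MonoidHom.mem_ker, Subgroup.mem_subgroupOf]
  have := kum_eq_one_iff hζ (Subgroup.inclusion hB2 x)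
  exact this

theorem card_range_kumB :
    Nat.card (kumB hζ B hB2).range = (baseUnits K L).relIndex B := by
  rw [← Subgroup.index_ker, ker_kumB, Subgroup.relIndex]

theorem pow_eq_one_of_mem_range_kumB (χ : (kumB hζ B hB2).range) : χ ^ n = 1 := by
  obtain ⟨χ, x, rfl⟩ := χ
  apply Subtype.ext
  ext σ
  have := kum_apply_pow hζ (Subgroup.inclusion hB2 x) σ
  simpa using congrArg Units.val this

/-- Evaluation: `σ ↦ (χ ↦ χ σ)` on the group of Kummer characters of `B`. -/
def evB : (L ≃ₐ[K] L) →* ((kumB hζ B hB2).range →* Lˣ) where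
  toFun σ :=
    { toFun := fun χ => (χ : (L ≃ₐ[K] L) →* Lˣ) σ
      map_one' := rfl
      map_mul' := fun _ _ => rfl }
  map_one' := by
    ext χ
    simp
  map_mul' σ τ := by
    ext χ
    simp

theorem evB_injective (hgen : adjoin K (((↑) : Lˣ → L) '' (B : Set Lˣ)) = ⊤) :
    Function.Injective (evB hζ B hB2) := by
  rw [injective_iff_map_eq_one]
  intro σ hσ
  have h1 : ∀ x : B, σ • (x : Lˣ) = x := by
    intro x
    have := congrArg (fun f : (kumB hζ B hB2).range →* Lˣ => f ⟨_, x, rfl⟩) hσ
    simp only [evB, MonoidHom.coe_mk, OneHom.coe_mk, MonoidHom.one_apply] at this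
    rwa [kumB_apply, div_eq_one] at this
  ext y
  have hy : y ∈ adjoin K (((↑) : Lˣ → L) '' (B : Set Lˣ)) := by rw [hgen]; trivial
  have key : adjoin K (((↑) : Lˣ → L) '' (B : Set Lˣ)) ≤
      IntermediateField.fixedField (Subgroup.zpowers σ) := by
    rw [adjoin_le_iff]
    rintro _ ⟨x, hx, rfl⟩
    rw [SetLike.mem_coe, IntermediateField.mem_fixedField_iff]
    rintro τ ⟨k, rfl⟩
    have h2 : ∀ m : ℕ, (σ ^ m) • x = x := by
      intro m
      induction m with
      | zero => simp
      | succ m ih => rw [pow_succ, mul_smul, h1 ⟨x, hx⟩, ih]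
    have h3 : ∀ k : ℤ, (σ ^ k) • x = x := by
      intro k
      cases k with
      | ofNat m => simpa using h2 m
      | negSucc m => rw [zpow_negSucc, inv_smul_eq_iff, h2]
    have := congrArg Units.val (h3 k)
    simpa [AlgEquiv.smul_units_def] using this
  have := key hy
  rw [IntermediateField.mem_fixedField_iff] at this
  exact this σ (Subgroup.mem_zpowers σ)

include hζ hB1 hB2 in
/-- **Kummer degree formula, radical form**: if `L/K` is finite Galois, `K` contains a primitive
`n`-th root of unity and `L = K(B)` for a group `Kˣ ≤ B` of `n`-th radicals, then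
`[B : Kˣ] = [L : K]`. -/
theorem relIndex_baseUnits_eq_finrank
    (hgen : adjoin K (((↑) : Lˣ → L) '' (B : Set Lˣ)) = ⊤) :
    (baseUnits K L).relIndex B = Module.finrank K L := by
  have _hB1 := hB1
  haveI := hasEnoughRootsOfUnity_of_base (L := L) hζ
  rw [← card_range_kumB hζ B hB2, ← IsGalois.card_aut_eq_finrank]
  haveI : Finite ((L ≃ₐ[K] L) →* Lˣ) := inferInstance
  haveI : Finite (kumB hζ B hB2).range := inferInstance
  apply le_antisymm
  · -- `|A'| ≤ |Hom(G, Lˣ)| ≤ |G|`
    calc Nat.card (kumB hζ B hB2).range ≤ Nat.card ((L ≃ₐ[K] L) →* Lˣ) :=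
          Nat.card_le_card_of_injective _ Subtype.val_injective
      _ ≤ Nat.card (L ≃ₐ[K] L) := card_monoidHom_units_le _
  · -- `|G| ≤ |Hom(A', Lˣ)| = |A'|`
    have hexp : Monoid.exponent (kumB hζ B hB2).range ∣ n :=
      Monoid.exponent_dvd_of_forall_pow_eq_one (pow_eq_one_of_mem_range_kumB hζ B hB2)
    haveI : HasEnoughRootsOfUnity L (Monoid.exponent (kumB hζ B hB2).range) :=
      HasEnoughRootsOfUnity.of_dvd L hexp
    have h1 := CommGroup.card_monoidHom_of_hasEnoughRootsOfUnity (kumB hζ B hB2).range L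
    rw [← h1]
    haveI : Finite ((kumB hζ B hB2).range →* Lˣ) := inferInstance
    exact Nat.card_le_card_of_injective _ (evB_injective hζ B hB2 hgen)

include hζ hB2 in
/-- The Galois group of a Kummer extension is commutative. -/
theorem gal_mul_comm (hgen : adjoin K (((↑) : Lˣ → L) '' (B : Set Lˣ)) = ⊤)
    (σ τ : L ≃ₐ[K] L) : σ * τ = τ * σ := by
  apply evB_injective hζ B hB2 hgen
  rw [map_mul, map_mul]
  exact mul_comm (evB hζ B hB2 σ) (evB hζ B hB2 τ)

include hζ hB2 in
/-- The Galois group of a Kummer extension has exponent dividing `n`. -/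
theorem gal_pow_eq_one (hgen : adjoin K (((↑) : Lˣ → L) '' (B : Set Lˣ)) = ⊤)
    (σ : L ≃ₐ[K] L) : σ ^ n = 1 := by
  apply evB_injective hζ B hB2 hgen
  rw [map_pow, map_one]
  ext χ
  have h := pow_eq_one_of_mem_range_kumB hζ B hB2 χ
  have h2 := congrArg (fun f : (kumB hζ B hB2).range => (f : (L ≃ₐ[K] L) →* Lˣ) σ) h
  simpa [evB] using congrArg Units.val h2

end Count

/-! ### The `powFrom` form -/

section PowFrom

variable (K L n) in
/-- The radicals of `L/K` whose `n`-th power lies in (the image of) `Δ ≤ Kˣ`. -/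
def radicalsOf (Δ : Subgroup Kˣ) : Subgroup Lˣ :=
  (Δ.map (unitsMap K L)).comap (powMonoidHom n)

theorem mem_radicalsOf_iff {Δ : Subgroup Kˣ} {x : Lˣ} :
    x ∈ radicalsOf K L n Δ ↔ ∃ a ∈ Δ, unitsMap K L a = x ^ n := Iff.rfl

theorem radicalsOf_le_radicals (Δ : Subgroup Kˣ) : radicalsOf K L n Δ ≤ radicals K L n := by
  rintro x ⟨a, -, ha⟩
  exact ⟨a, ha⟩

theorem radicalsOf_mono {Δ₁ Δ₂ : Subgroup Kˣ} (h : Δ₁ ≤ Δ₂) :
    radicalsOf K L n Δ₁ ≤ radicalsOf K L n Δ₂ :=
  Subgroup.comap_mono (Subgroup.map_mono h)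

theorem baseUnits_le_radicalsOf {Δ : Subgroup Kˣ}
    (hΔ : (powMonoidHom n : Kˣ →* Kˣ).range ≤ Δ) : baseUnits K L ≤ radicalsOf K L n Δ := by
  rintro _ ⟨b, rfl⟩
  exact ⟨b ^ n, hΔ ⟨b, rfl⟩, by rw [map_pow, powMonoidHom_apply]⟩

theorem radicalsOf_powFrom : radicalsOf K L n (powFrom K L n) = radicals K L n := by
  apply le_antisymm (radicalsOf_le_radicals _)
  rintro x ⟨a, ha⟩
  exact ⟨a, ⟨x, ha.symm⟩, ha⟩

theorem map_unitsMap_range_pow :
    ((powMonoidHom n : Kˣ →* Kˣ).range).map (unitsMap K L)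
      = (baseUnits K L).map (powMonoidHom n) := by
  rw [baseUnits, MonoidHom.map_range, MonoidHom.map_range]
  congr 1
  ext b
  simp [map_pow]

theorem map_pow_radicalsOf {Δ : Subgroup Kˣ} (hΔ : Δ ≤ powFrom K L n) :
    (radicalsOf K L n Δ).map (powMonoidHom n) = Δ.map (unitsMap K L) := by
  rw [radicalsOf, Subgroup.map_comap_eq, inf_eq_right]
  rintro _ ⟨a, ha, rfl⟩
  obtain ⟨x, hx⟩ := hΔ ha
  exact ⟨x, hx⟩

/-- **Index transport**: `[Δ : K^{×n}] = [radicalsOf Δ : Kˣ]` when every element of `Δ` is an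
`n`-th power in `L`. -/
theorem relIndex_range_pow_eq (hζ : (primitiveRoots n K).Nonempty) {Δ : Subgroup Kˣ}
    (hΔ : Δ ≤ powFrom K L n) :
    ((powMonoidHom n : Kˣ →* Kˣ).range).relIndex Δ
      = (baseUnits K L).relIndex (radicalsOf K L n Δ) := by
  have hker1 : (powMonoidHom n : Lˣ →* Lˣ).ker ≤ baseUnits K L := by
    rw [ker_powMonoidHom]
    exact rootsOfUnity_le_baseUnits hζ
  have hker2 : (powMonoidHom n : Lˣ →* Lˣ).ker ≤ radicalsOf K L n Δ := by
    intro x hx
    rw [MonoidHom.mem_ker, powMonoidHom_apply] at hx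
    exact ⟨1, one_mem _, by rw [powMonoidHom_apply, hx, map_one]⟩
  rw [← Subgroup.relIndex_map_map_of_injective _ _ (unitsMap_injective K L),
    map_unitsMap_range_pow, ← map_pow_radicalsOf hΔ, Subgroup.relIndex_map_map,
    sup_eq_left.2 hker1, sup_eq_left.2 hker2]

variable [FiniteDimensional K L] [IsGalois K L]

/-- **Kummer degree formula**: if `L/K` is finite Galois, generated by its `n`-th radicals, and `K`
contains a primitive `n`-th root of unity, then `[L : K] = [K^× ∩ L^{×n} : K^{×n}]`. -/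
theorem relIndex_powFrom_eq_finrank (hζ : (primitiveRoots n K).Nonempty)
    (hgen : adjoin K (((↑) : Lˣ → L) '' (radicals K L n : Set Lˣ)) = ⊤) :
    ((powMonoidHom n : Kˣ →* Kˣ).range).relIndex (powFrom K L n) = Module.finrank K L := by
  rw [relIndex_range_pow_eq hζ le_rfl, radicalsOf_powFrom]
  exact relIndex_baseUnits_eq_finrank hζ _ baseUnits_le_radicals le_rfl hgen

/-- **Rigidity**: if `L = K(B)` for a group `Kˣ ≤ B` of `n`-th radicals, then `B` is the group of
all `n`-th radicals of `L`. -/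
theorem eq_radicals_of_adjoin_eq_top (hζ : (primitiveRoots n K).Nonempty)
    (B : Subgroup Lˣ) (hB1 : baseUnits K L ≤ B) (hB2 : B ≤ radicals K L n)
    (hgen : adjoin K (((↑) : Lˣ → L) '' (B : Set Lˣ)) = ⊤) : B = radicals K L n := by
  apply le_antisymm hB2
  have hgen' : adjoin K (((↑) : Lˣ → L) '' (radicals K L n : Set Lˣ)) = ⊤ := by
    rw [eq_top_iff, ← hgen]
    exact adjoin.mono K _ _ (Set.image_mono hB2)
  have h1 := relIndex_baseUnits_eq_finrank hζ B hB1 hB2 hgen
  have h2 := relIndex_baseUnits_eq_finrank hζ _ baseUnits_le_radicals le_rfl hgen'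
  have h3 := Subgroup.relIndex_mul_relIndex (baseUnits K L) B (radicals K L n) hB1 hB2
  rw [h1, h2] at h3
  have hpos : 0 < Module.finrank K L := Module.finrank_pos
  have h4 : B.relIndex (radicals K L n) = 1 := by
    have : Module.finrank K L * B.relIndex (radicals K L n) = Module.finrank K L * 1 := by
      rw [h3, mul_one]
    exact Nat.eq_of_mul_eq_mul_left hpos this
  exact Subgroup.relIndex_eq_one.1 h4

end PowFrom

end Fermat.Agent.CFT.Kummer
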