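import Mathlib
import Fermat.Agent.CFT.Kummer.Degree

/-!
# PROJECT C, slice C5a: multi-generator Kummer theory — the fields `K(Δ^{1/n})`

`K` contains a primitive `n`-th root of unity, `K^{×n} ≤ Δ ≤ Kˣ` with `[Δ : K^{×n}]` finite, `Ω/K`
a field in which every element of `Δ` has an `n`-th root.  Then `M = kummerField n Δ Ω = K(Δ^{1/n})`
is finite Galois over `K`, with commutative Galois group of exponent dividing `n`,
`[M : K] = [Δ : K^{×n}]`, and `K^× ∩ M^{×n} = Δ`.
-/

set_option autoImplicit false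
set_option linter.unusedSectionVars false
set_option linter.style.haveILetI false
set_option linter.deprecated false

namespace Fermat.Agent.CFT.Kummer

open IntermediateField Polynomial

variable {K : Type*} [Field K] (n : ℕ) [NeZero n] (Δ : Subgroup Kˣ)
  (Ω : Type*) [Field Ω] [Algebra K Ω]

/-- The set of `n`-th roots in `Ω` of the elements of `Δ`. -/
def radSet : Set Ω := {x | ∃ a ∈ Δ, x ^ n = algebraMap K Ω ((a : Kˣ) : K)}

/-- The Kummer field `K(Δ^{1/n})` inside `Ω`. -/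
def kummerField : IntermediateField K Ω := adjoin K (radSet n Δ Ω)

/-- The field generated by the `n`-th roots of one element. -/
def rootField (a : K) : IntermediateField K Ω := adjoin K ((X ^ n - C a : K[X]).rootSet Ω)

variable {n Δ Ω}

theorem mem_rootSet_X_pow_sub_C {a : K} {x : Ω} :
    x ∈ (X ^ n - C a : K[X]).rootSet Ω ↔ x ^ n = algebraMap K Ω a := by
  rw [mem_rootSet_of_ne (X_pow_sub_C_ne_zero (NeZero.pos n) a)]
  simp [sub_eq_zero]

theorem radSet_eq_iUnion :
    radSet n Δ Ω = ⋃ a : Δ, (X ^ n - C (((a : Kˣ) : K)) : K[X]).rootSet Ω := by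
  ext x
  simp only [radSet, Set.mem_setOf_eq, Set.mem_iUnion, mem_rootSet_X_pow_sub_C]
  constructor
  · rintro ⟨a, ha, h⟩
    exact ⟨⟨a, ha⟩, h⟩
  · rintro ⟨a, h⟩
    exact ⟨a, a.2, h⟩

theorem kummerField_eq_iSup :
    kummerField n Δ Ω = ⨆ a : Δ, rootField n Ω (((a : Kˣ) : K)) := by
  rw [kummerField, radSet_eq_iUnion, adjoin_iUnion]
  rfl

theorem radSet_mono {Δ₁ Δ₂ : Subgroup Kˣ} (h : Δ₁ ≤ Δ₂) : radSet n Δ₁ Ω ⊆ radSet n Δ₂ Ω := by
  rintro x ⟨a, ha, hx⟩
  exact ⟨a, h ha, hx⟩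

theorem kummerField_mono {Δ₁ Δ₂ : Subgroup Kˣ} (h : Δ₁ ≤ Δ₂) :
    kummerField n Δ₁ Ω ≤ kummerField n Δ₂ Ω :=
  adjoin.mono K _ _ (radSet_mono h)

theorem radSet_subset_kummerField : radSet n Δ Ω ⊆ (kummerField n Δ Ω : Set Ω) :=
  subset_adjoin K _

/-- Multiplying `a` by an `n`-th power does not change the field of its `n`-th roots. -/
theorem rootField_mul_pow_le (a : K) (b : Kˣ) :
    rootField n Ω (a * ((b : K) ^ n)) ≤ rootField n Ω a := by
  rw [rootField, adjoin_le_iff]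
  intro x hx
  rw [mem_rootSet_X_pow_sub_C] at hx
  have hb0 : algebraMap K Ω (b : K) ≠ 0 := by
    rw [Ne, map_eq_zero]
    exact b.ne_zero
  have h1 : (x / algebraMap K Ω (b : K)) ∈ (X ^ n - C a : K[X]).rootSet Ω := by
    rw [mem_rootSet_X_pow_sub_C, div_pow, hx, map_mul, map_pow]
    field_simp
  have h2 : x = (x / algebraMap K Ω (b : K)) * algebraMap K Ω (b : K) := by
    field_simp
  rw [SetLike.mem_coe, h2]
  exact mul_mem (subset_adjoin K _ h1) (IntermediateField.algebraMap_mem _ _)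

section Galois

variable (hζ : (primitiveRoots n K).Nonempty)
include hζ

theorem natCast_ne_zero_of_primitiveRoots : ((n : ℕ) : K) ≠ 0 := by
  obtain ⟨ζ, hζ⟩ := hζ
  rw [mem_primitiveRoots (NeZero.pos n)] at hζ
  exact (hζ.neZero').ne

theorem normal_rootField (a : K) : Normal K (rootField n Ω a) := by
  by_cases h : ∃ x : Ω, x ^ n = algebraMap K Ω a
  · obtain ⟨x, hx⟩ := h
    obtain ⟨ζ, hζ⟩ := hζ
    rw [mem_primitiveRoots (NeZero.pos n)] at hζ
    have hζΩ : IsPrimitiveRoot (algebraMap K Ω ζ) n :=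
      hζ.map_of_injective (algebraMap K Ω).injective
    have hs : ((X ^ n - C a : K[X]).map (algebraMap K Ω)).Splits := by
      rw [Polynomial.map_sub, Polynomial.map_pow, map_X, map_C]
      exact X_pow_sub_C_splits_of_isPrimitiveRoot hζΩ hx
    haveI : (X ^ n - C a : K[X]).IsSplittingField K (rootField n Ω a) :=
      adjoin_rootSet_isSplittingField hs
    exact Normal.of_isSplittingField (X ^ n - C a : K[X])
  · have hempty : (X ^ n - C a : K[X]).rootSet Ω = ∅ := by
      ext x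
      rw [mem_rootSet_X_pow_sub_C]
      simp only [Set.mem_empty_iff_false, iff_false]
      exact fun hx => h ⟨x, hx⟩
    rw [rootField, hempty, adjoin_empty]
    exact Normal.of_algEquiv (botEquiv K Ω).symm

theorem normal_kummerField : Normal K (kummerField n Δ Ω) := by
  rw [kummerField_eq_iSup]
  haveI : ∀ a : Δ, Normal K (rootField n Ω (((a : Kˣ) : K))) := fun a => normal_rootField hζ _
  exact normal_iSup K Ω _

theorem isSeparable_kummerField : Algebra.IsSeparable K (kummerField n Δ Ω) := by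
  rw [kummerField, isSeparable_adjoin_iff_isSeparable]
  rintro x ⟨a, -, hx⟩
  have hsep : (X ^ n - C ((a : Kˣ) : K) : K[X]).Separable :=
    separable_X_pow_sub_C _ (natCast_ne_zero_of_primitiveRoots hζ) a.ne_zero
  have hroot : aeval x (X ^ n - C ((a : Kˣ) : K) : K[X]) = 0 := by simp [hx]
  exact hsep.of_dvd (minpoly.dvd K x hroot)

theorem isGalois_kummerField : IsGalois K (kummerField n Δ Ω) :=
  haveI := normal_kummerField (Δ := Δ) (Ω := Ω) hζ
  haveI := isSeparable_kummerField (Δ := Δ) (Ω := Ω) hζ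
  ⟨⟩

omit hζ in
theorem finiteDimensional_rootField (a : K) : FiniteDimensional K (rootField n Ω a) := by
  haveI : Finite ((X ^ n - C a : K[X]).rootSet Ω) := (rootSet_finite _ Ω).to_subtype
  apply finiteDimensional_adjoin
  intro x hx
  exact (isAlgebraic_of_mem_rootSet hx).isIntegral

omit hζ in
theorem finiteDimensional_kummerField
    (hfin : ((powMonoidHom n : Kˣ →* Kˣ).range).relIndex Δ ≠ 0) :
    FiniteDimensional K (kummerField n Δ Ω) := by
  classical
  set N := ((powMonoidHom n : Kˣ →* Kˣ).range).subgroupOf Δ with hN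
  haveI : N.FiniteIndex := ⟨hfin⟩
  haveI : Finite (Δ ⧸ N) := Subgroup.finite_quotient_of_finiteIndex
  let F : (Δ ⧸ N) → IntermediateField K Ω :=
    fun q => rootField n Ω ((((Quotient.out q : Δ) : Kˣ) : K))
  haveI : ∀ q, FiniteDimensional K (F q) := fun q => finiteDimensional_rootField _
  have hle : kummerField n Δ Ω ≤ ⨆ q, F q := by
    rw [kummerField_eq_iSup]
    refine iSup_le fun a => ?_
    set q : Δ ⧸ N := QuotientGroup.mk a with hq
    have h1 : (Quotient.out q)⁻¹ * a ∈ N := by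
      rw [← QuotientGroup.eq, hq]
      exact QuotientGroup.out_eq' _
    obtain ⟨b, hb⟩ := h1
    have h2 : (((a : Δ) : Kˣ) : K) = (((Quotient.out q : Δ) : Kˣ) : K) * ((b : K) ^ n) := by
      have h3 : ((a : Δ) : Kˣ) = ((Quotient.out q : Δ) : Kˣ) * b ^ n := by
        have : b ^ n = (((Quotient.out q)⁻¹ * a : Δ) : Kˣ) := hb
        rw [this]
        simp
      rw [h3]
      simp
    rw [h2]
    exact (rootField_mul_pow_le _ b).trans (le_iSup F q)
  haveI : FiniteDimensional K (⨆ q, F q : IntermediateField K Ω) :=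
    finiteDimensional_iSup_of_finite
  exact Module.Finite.of_injective (inclusion hle).toLinearMap (inclusion hle).injective

end Galois

/-! ### The main theorems -/

section Main

variable (hζ : (primitiveRoots n K).Nonempty)
  (hΔ : (powMonoidHom n : Kˣ →* Kˣ).range ≤ Δ)
  (hfin : ((powMonoidHom n : Kˣ →* Kˣ).range).relIndex Δ ≠ 0)
  (hroot : ∀ a ∈ Δ, ∃ x : Ω, x ^ n = algebraMap K Ω ((a : Kˣ) : K))

/-- An `n`-th root in `Ω` of an element of `Δ`, as a unit of the Kummer field. -/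
theorem exists_unit_of_mem_radSet {x : Ω} {a : Kˣ} (ha : a ∈ Δ)
    (hx : x ^ n = algebraMap K Ω (a : K)) :
    ∃ u : (kummerField n Δ Ω)ˣ, ((u : kummerField n Δ Ω) : Ω) = x ∧
      u ^ n = unitsMap K (kummerField n Δ Ω) a := by
  have hxM : x ∈ kummerField n Δ Ω := radSet_subset_kummerField ⟨a, ha, hx⟩
  have hx0 : (⟨x, hxM⟩ : kummerField n Δ Ω) ≠ 0 := by
    intro h0
    have h1 : x = 0 := congrArg Subtype.val h0
    rw [h1, zero_pow (NeZero.ne n)] at hx
    exact a.ne_zero ((map_eq_zero _).1 hx.symm)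
  refine ⟨Units.mk0 ⟨x, hxM⟩ hx0, rfl, ?_⟩
  apply Units.ext
  apply Subtype.ext
  simpa using hx

include hroot in
theorem le_powFrom_kummerField : Δ ≤ powFrom K (kummerField n Δ Ω) n := by
  intro a ha
  obtain ⟨x, hx⟩ := hroot a ha
  obtain ⟨u, -, hu⟩ := exists_unit_of_mem_radSet ha hx
  exact ⟨u, hu⟩

/-- The Kummer field is generated by the radicals of `Δ` it contains. -/
theorem adjoin_radicalsOf_kummerField :
    adjoin K (((↑) : (kummerField n Δ Ω)ˣ → kummerField n Δ Ω) ''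
      (radicalsOf K (kummerField n Δ Ω) n Δ : Set (kummerField n Δ Ω)ˣ)) = ⊤ := by
  apply IntermediateField.lift_injective
  rw [lift_adjoin, lift_top]
  apply le_antisymm
  · rw [adjoin_le_iff]
    rintro _ ⟨_, ⟨u, -, rfl⟩, rfl⟩
    exact (u : kummerField n Δ Ω).2
  · refine adjoin.mono K _ _ ?_
    rintro x ⟨a, ha, hx⟩
    obtain ⟨u, hu1, hu2⟩ := exists_unit_of_mem_radSet ha hx
    exact ⟨(u : kummerField n Δ Ω), ⟨u, ⟨a, ha, hu2.symm⟩, rfl⟩, hu1⟩

include hζ hΔ hfin hroot in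
/-- **Degree of a Kummer extension**: `[K(Δ^{1/n}) : K] = [Δ : K^{×n}]`. -/
theorem finrank_kummerField :
    Module.finrank K (kummerField n Δ Ω)
      = ((powMonoidHom n : Kˣ →* Kˣ).range).relIndex Δ := by
  haveI := isGalois_kummerField (Δ := Δ) (Ω := Ω) hζ
  haveI := finiteDimensional_kummerField (Ω := Ω) hfin
  rw [relIndex_range_pow_eq hζ (le_powFrom_kummerField hroot)]
  exact (relIndex_baseUnits_eq_finrank hζ _ (baseUnits_le_radicalsOf hΔ)
    (radicalsOf_le_radicals Δ) adjoin_radicalsOf_kummerField).symm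

include hζ hΔ hfin hroot in
/-- **The `n`-th powers of a Kummer extension**: an element of `Kˣ` is an `n`-th power in
`K(Δ^{1/n})` iff it lies in `Δ`. -/
theorem powFrom_kummerField : powFrom K (kummerField n Δ Ω) n = Δ := by
  haveI := isGalois_kummerField (Δ := Δ) (Ω := Ω) hζ
  haveI := finiteDimensional_kummerField (Ω := Ω) hfin
  apply le_antisymm _ (le_powFrom_kummerField hroot)
  have hB := eq_radicals_of_adjoin_eq_top hζ (radicalsOf K (kummerField n Δ Ω) n Δ)
    (baseUnits_le_radicalsOf hΔ) (radicalsOf_le_radicals Δ) adjoin_radicalsOf_kummerField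
  rintro a ⟨x, hx⟩
  have hx' : x ∈ radicals K (kummerField n Δ Ω) n := ⟨a, hx.symm⟩
  rw [← hB] at hx'
  obtain ⟨a', ha', h⟩ := hx'
  have : a' = a := unitsMap_injective K (kummerField n Δ Ω) (h.trans hx)
  exact this ▸ ha'

include hζ hΔ hfin hroot in
theorem mem_iff_exists_pow_eq (a : Kˣ) :
    a ∈ Δ ↔ ∃ x ∈ kummerField n Δ Ω, x ^ n = algebraMap K Ω (a : K) := by
  constructor
  · intro ha
    obtain ⟨x, hx⟩ := hroot a ha
    exact ⟨x, radSet_subset_kummerField ⟨a, ha, hx⟩, hx⟩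
  · rintro ⟨x, hxM, hx⟩
    rw [← powFrom_kummerField (Ω := Ω) hζ hΔ hfin hroot]
    have hx0 : (⟨x, hxM⟩ : kummerField n Δ Ω) ≠ 0 := by
      intro h0
      have h1 : x = 0 := congrArg Subtype.val h0
      rw [h1, zero_pow (NeZero.ne n)] at hx
      exact a.ne_zero ((map_eq_zero _).1 hx.symm)
    refine ⟨Units.mk0 ⟨x, hxM⟩ hx0, ?_⟩
    apply Units.ext
    apply Subtype.ext
    simpa using hx

include hζ in
/-- The Galois group of `K(Δ^{1/n})/K` is commutative. -/
theorem gal_kummerField_mul_comm [FiniteDimensional K (kummerField n Δ Ω)]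
    [IsGalois K (kummerField n Δ Ω)]
    (σ τ : (kummerField n Δ Ω) ≃ₐ[K] (kummerField n Δ Ω)) : σ * τ = τ * σ :=
  gal_mul_comm hζ _ (radicalsOf_le_radicals Δ) adjoin_radicalsOf_kummerField σ τ

include hζ in
/-- The Galois group of `K(Δ^{1/n})/K` has exponent dividing `n`. -/
theorem gal_kummerField_pow_eq_one [FiniteDimensional K (kummerField n Δ Ω)]
    [IsGalois K (kummerField n Δ Ω)]
    (σ : (kummerField n Δ Ω) ≃ₐ[K] (kummerField n Δ Ω)) : σ ^ n = 1 :=
  gal_pow_eq_one hζ _ (radicalsOf_le_radicals Δ) adjoin_radicalsOf_kummerField σ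

end Main

/-- **Kummer correspondence, injectivity**: `K(Δ₁^{1/n}) ≤ K(Δ₂^{1/n}) ↔ Δ₁ ≤ Δ₂`. -/
theorem kummerField_le_iff (hζ : (primitiveRoots n K).Nonempty) {Δ₁ Δ₂ : Subgroup Kˣ}
    (hΔ₂ : (powMonoidHom n : Kˣ →* Kˣ).range ≤ Δ₂)
    (hfin₂ : ((powMonoidHom n : Kˣ →* Kˣ).range).relIndex Δ₂ ≠ 0)
    (hroot₁ : ∀ a ∈ Δ₁, ∃ x : Ω, x ^ n = algebraMap K Ω ((a : Kˣ) : K))
    (hroot₂ : ∀ a ∈ Δ₂, ∃ x : Ω, x ^ n = algebraMap K Ω ((a : Kˣ) : K)) :
    kummerField n Δ₁ Ω ≤ kummerField n Δ₂ Ω ↔ Δ₁ ≤ Δ₂ := by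
  refine ⟨fun h a ha => ?_, kummerField_mono⟩
  obtain ⟨x, hx⟩ := hroot₁ a ha
  rw [mem_iff_exists_pow_eq (Ω := Ω) hζ hΔ₂ hfin₂ hroot₂]
  exact ⟨x, h (radSet_subset_kummerField ⟨a, ha, hx⟩), hx⟩

end Fermat.Agent.CFT.Kummer
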