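import Mathlib
import Fermat.Agent.CFT.Kummer.KummerField

/-!
# PROJECT C, slice C5a: multi-generator Kummer theory — classification

If `K` contains a primitive `n`-th root of unity and `L/K` is a finite Galois extension whose Galois
group is commutative of exponent dividing `n`, then `L` is generated over `K` by its `n`-th
radicals: `L = K(Δ^{1/n})` with `Δ = K^× ∩ L^{×n}`, and `[L : K] = [Δ : K^{×n}]`.
(Hilbert 90 + characters of a finite abelian group separate points.)
-/

set_option autoImplicit false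
set_option linter.unusedSectionVars false
set_option linter.style.haveILetI false

namespace Fermat.Agent.CFT.Kummer

open IntermediateField

variable {K L : Type*} [Field K] [Field L] [Algebra K L] {n : ℕ} [NeZero n]
  [FiniteDimensional K L] [IsGalois K L]

/-- **Hilbert 90 for Kummer characters**: every character of `Gal(L/K)` with values in the `n`-th
roots of unity is the Kummer character of a radical. -/
theorem exists_radical_of_char (hζ : (primitiveRoots n K).Nonempty)
    (χ : (L ≃ₐ[K] L) →* Lˣ) (hχ : ∀ σ, χ σ ^ n = 1) :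
    ∃ β : Lˣ, β ∈ radicals K L n ∧ ∀ σ : L ≃ₐ[K] L, σ • β / β = χ σ := by
  have hfix : ∀ σ τ : L ≃ₐ[K] L, σ • χ τ = χ τ := fun σ τ =>
    smul_eq_of_mem_baseUnits σ (rootsOfUnity_le_baseUnits hζ ((mem_rootsOfUnity n _).2 (hχ τ)))
  have hcoc : groupCohomology.IsMulCocycle₁ (fun σ => χ σ) := by
    intro σ τ
    show χ (σ * τ) = σ • χ τ * χ σ
    rw [hfix, map_mul, mul_comm]
  obtain ⟨β, hβ⟩ := groupCohomology.isMulCoboundary₁_of_isMulCocycle₁_of_aut_to_units _ hcoc
  refine ⟨β, ?_, hβ⟩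
  rw [mem_radicals_iff, mem_baseUnits_iff', IsGalois.mem_range_algebraMap_iff_fixed]
  intro σ
  have h1 : σ • (β ^ n) = β ^ n := by
    have h2 : (σ • β / β) ^ n = 1 := by rw [hβ σ, hχ]
    rw [div_pow, div_eq_one, ← smul_pow'] at h2
    exact h2
  have := congrArg Units.val h1
  simpa [AlgEquiv.smul_units_def] using this

/-- **Kummer classification**: a finite abelian extension of exponent dividing `n` of a field
containing a primitive `n`-th root of unity is generated by its `n`-th radicals. -/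
theorem adjoin_radicals_eq_top (hζ : (primitiveRoots n K).Nonempty)
    (hcomm : ∀ σ τ : L ≃ₐ[K] L, σ * τ = τ * σ) (hexp : ∀ σ : L ≃ₐ[K] L, σ ^ n = 1) :
    adjoin K (((↑) : Lˣ → L) '' (radicals K L n : Set Lˣ)) = ⊤ := by
  classical
  set M := adjoin K (((↑) : Lˣ → L) '' (radicals K L n : Set Lˣ)) with hM
  letI : CommGroup (L ≃ₐ[K] L) := { (inferInstance : Group (L ≃ₐ[K] L)) with mul_comm := hcomm }
  haveI := hasEnoughRootsOfUnity_of_base (L := L) hζ
  have hexp' : Monoid.exponent (L ≃ₐ[K] L) ∣ n := Monoid.exponent_dvd_of_forall_pow_eq_one hexp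
  haveI : HasEnoughRootsOfUnity L (Monoid.exponent (L ≃ₐ[K] L)) :=
    HasEnoughRootsOfUnity.of_dvd L hexp'
  -- the fixing subgroup of `M` is trivial
  have hbot : M.fixingSubgroup = ⊥ := by
    rw [eq_bot_iff]
    intro τ hτ
    rw [Subgroup.mem_bot]
    by_contra hne
    obtain ⟨χ, hχτ⟩ := CommGroup.exists_apply_ne_one_of_hasEnoughRootsOfUnity (L ≃ₐ[K] L) L hne
    have hχn : ∀ σ, χ σ ^ n = 1 := fun σ => by rw [← map_pow, hexp, map_one]
    obtain ⟨β, hβrad, hβ⟩ := exists_radical_of_char hζ χ hχn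
    apply hχτ
    rw [← hβ τ, div_eq_one]
    have hβM : (β : L) ∈ M := subset_adjoin K _ ⟨β, hβrad, rfl⟩
    have h1 : τ (β : L) = β := (mem_fixingSubgroup_iff _ _).1 hτ _ hβM
    apply Units.ext
    simpa [AlgEquiv.smul_units_def] using h1
  have h2 := IsGalois.fixedField_fixingSubgroup M
  rw [hbot] at h2
  rw [← h2]
  exact IntermediateField.fixedField_bot

/-- **Degree of an abelian extension of exponent `n`**: `[L : K] = [K^× ∩ L^{×n} : K^{×n}]`. -/
theorem finrank_eq_relIndex_powFrom (hζ : (primitiveRoots n K).Nonempty)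
    (hcomm : ∀ σ τ : L ≃ₐ[K] L, σ * τ = τ * σ) (hexp : ∀ σ : L ≃ₐ[K] L, σ ^ n = 1) :
    Module.finrank K L = ((powMonoidHom n : Kˣ →* Kˣ).range).relIndex (powFrom K L n) :=
  (relIndex_powFrom_eq_finrank hζ (adjoin_radicals_eq_top hζ hcomm hexp)).symm

/-- **Kummer classification, field form**: `L = K(Δ^{1/n})` for `Δ = K^× ∩ L^{×n}`. -/
theorem kummerField_powFrom_eq_top (hζ : (primitiveRoots n K).Nonempty)
    (hcomm : ∀ σ τ : L ≃ₐ[K] L, σ * τ = τ * σ) (hexp : ∀ σ : L ≃ₐ[K] L, σ ^ n = 1) :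
    kummerField n (powFrom K L n) L = ⊤ := by
  rw [eq_top_iff, ← adjoin_radicals_eq_top hζ hcomm hexp]
  refine adjoin.mono K _ _ ?_
  rintro _ ⟨x, ⟨a, ha⟩, rfl⟩
  refine ⟨a, ⟨x, ha.symm⟩, ?_⟩
  have := congrArg Units.val ha
  simpa using this.symm

/-! ### Subextensions of a fixed field `Ω` -/

section Sub

variable {Ω : Type*} [Field Ω] [Algebra K Ω]

omit [FiniteDimensional K L] [IsGalois K L] in
/-- All `n`-th roots in `Ω` of an element of `K` which has one `n`-th root in the intermediate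
field `E` lie in `E`. -/
theorem mem_of_pow_eq_of_mem_powFrom (hζ : (primitiveRoots n K).Nonempty)
    (E : IntermediateField K Ω) {a : Kˣ} (ha : a ∈ powFrom K E n) {x : Ω}
    (hx : x ^ n = algebraMap K Ω (a : K)) : x ∈ E := by
  obtain ⟨y, hy⟩ := ha
  have hy' : ((y : E) : Ω) ^ n = algebraMap K Ω (a : K) := by
    have := congrArg (fun u : Eˣ => ((u : E) : Ω)) hy
    simpa using this
  have hy0 : ((y : E) : Ω) ≠ 0 := by
    intro h0
    exact y.ne_zero (Subtype.ext h0)
  obtain ⟨ζ, hζ⟩ := hζ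
  rw [mem_primitiveRoots (NeZero.pos n)] at hζ
  have hζΩ : IsPrimitiveRoot (algebraMap K Ω ζ) n :=
    hζ.map_of_injective (algebraMap K Ω).injective
  have h1 : (x / ((y : E) : Ω)) ^ n = 1 := by
    rw [div_pow, hx, hy', div_self]
    rw [← hy']
    exact pow_ne_zero n hy0
  obtain ⟨i, -, hi⟩ := hζΩ.eq_pow_of_pow_eq_one h1
  have h2 : x = (algebraMap K Ω ζ) ^ i * ((y : E) : Ω) := by
    rw [hi]
    field_simp
  rw [h2]
  exact mul_mem (pow_mem (IntermediateField.algebraMap_mem E ζ) i) (y : E).2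

/-- **Kummer classification inside `Ω`**: a finite abelian subextension `E/K` of exponent dividing
`n` is the Kummer field of `Δ = K^× ∩ E^{×n}`. -/
theorem eq_kummerField_of_abelian (hζ : (primitiveRoots n K).Nonempty)
    (E : IntermediateField K Ω) [FiniteDimensional K E] [IsGalois K E]
    (hcomm : ∀ σ τ : E ≃ₐ[K] E, σ * τ = τ * σ) (hexp : ∀ σ : E ≃ₐ[K] E, σ ^ n = 1) :
    kummerField n (powFrom K E n) Ω = E := by
  apply le_antisymm
  · rw [kummerField, adjoin_le_iff]
    rintro x ⟨a, ha, hx⟩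
    exact mem_of_pow_eq_of_mem_powFrom hζ E ha hx
  · have h1 := kummerField_powFrom_eq_top (L := E) hζ hcomm hexp
    have h2 : IntermediateField.lift (kummerField n (powFrom K E n) E) = E := by
      rw [h1, lift_top]
    have h3 : IntermediateField.lift (kummerField n (powFrom K E n) E)
        ≤ kummerField n (powFrom K E n) Ω := by
      rw [kummerField, lift_adjoin]
      refine adjoin.mono K _ _ ?_
      rintro _ ⟨x, ⟨a, ha, hx⟩, rfl⟩
      refine ⟨a, ha, ?_⟩
      have := congrArg (fun u : E => (u : Ω)) hx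
      simpa using this
    exact h2.symm.le.trans h3

end Sub

/-! ### Index bookkeeping for a subgroup of `Kˣ` (e.g. `T`-units) -/

omit [FiniteDimensional K L] [IsGalois K L] in
/-- For a subgroup `U ≤ Kˣ` which is saturated for `n`-th roots (`x ^ n ∈ U → x ∈ U`, e.g. the
`T`-units of a number field), `[U · K^{×n} : K^{×n}] = [U : U^n]`. -/
theorem relIndex_range_pow_sup (U : Subgroup Kˣ) (hsat : ∀ x : Kˣ, x ^ n ∈ U → x ∈ U) :
    ((powMonoidHom n : Kˣ →* Kˣ).range).relIndex (U ⊔ (powMonoidHom n : Kˣ →* Kˣ).range)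
      = (U.map (powMonoidHom n)).relIndex U := by
  rw [sup_comm, Subgroup.relIndex_sup_left, ← Subgroup.inf_relIndex_right]
  congr 1
  ext x
  constructor
  · rintro ⟨⟨y, rfl⟩, hy⟩
    exact ⟨y, hsat y hy, rfl⟩
  · rintro ⟨y, hy, rfl⟩
    exact ⟨⟨y, rfl⟩, pow_mem hy n⟩

end Fermat.Agent.CFT.Kummer
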